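/-
GATE-B / GB-B5-FRAMEPD (helper41; leaf asked by helper35, board 6698): **the B5-POINT frame at the
Taylor–Wiles prime data**.

`Point/FinalT.exists_newform_of_point_idem_T` (helper83) is stated for an abstract frame
`(θ hθ hodd L hL hnd hdvd hsq θloc pr hpr hprod)`.  `TwInst.exists_tw_pi` (helper44) builds this
frame for `θ = Theta (Δs p e) H.psi j` INSIDE its proof.  Here the frame is exported, in the
spelling of `FinalT`, for `H : TWChars.PrimeData N p K r e N'`, `j ≤ K`: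

* `θ := Theta (fun i => Multiplicative (ZMod (p ^ e i))) H.psi j`,
* `L := List.ofFn fun i : Fin j => r i`,
* `pr := prFam (fun i => Multiplicative (ZMod (p ^ e i))) r`,
* `θloc := θlocOf θ pr`,

together with the two facts on the diamond generators `H.dd hp i` needed by the consumer
(`chi_dd_mem_range`, `chi_dd_pow`) and the packaged instance `exists_newform_of_point_idem_PD`.
-/
import Mathlib
import Fermat.Agent.GE8.P3B.GB.B4.Twist.TwInst
import Fermat.Agent.GB.B5.Point.FinalT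
import Fermat.Agent.GE8.P3B.StepGen
import Fermat.Agent.GE8.P3B.Ok3W

/- TWIN (helper6 B4 generator; conventions of helper24 / helper86) of `Fermat.Agent.GB.B5.Glue.FramePD` with `p ≠ 3` relaxed to `Ok3A Sy 𝔪 p` / `Ok3W p W` (RISK-5 fix (B), step B4); everything below lives in the wrapper namespace `Fermat.Agent.GE8.P3B`. -/
set_option linter.dupNamespace false
open Fermat Fermat.Agent Fermat.Agent.GB Fermat.Agent.GB.B3 Fermat.Agent.GB.B3.EisGamma0 Fermat.Agent.GB.B3.GamH Fermat.Agent.GB.B3.TWChars Fermat.Agent.GB.B4 Fermat.Agent.GB.B4.Twist Fermat.Agent.GB.B4.Twist.Asm Fermat.Agent.GB.B4.Twist.TwFinal Fermat.Agent.GB.B5 Fermat.Agent.GJ Fermat.Agent.GJ.J2 Fermat.Agent.GJ.J2.Lat Fermat.Agent.GM Fermat.Agent.GM.B Fermat.Agent.S16_helper49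

namespace Fermat.Agent.GE8.P3B

set_option autoImplicit false
set_option linter.unusedSectionVars false

open scoped MatrixGroups
open CongruenceSubgroup Matrix Matrix.SpecialLinearGroup ModularCurve ModularCurve.Period
open S16_helper49 GM.B
open GB.B3 GB.B3.EisGamma0 GB.B3.GamH
open GJ.J2.Lat
open GB.B4.Twist.Asm
open GB.B4.Twist.TwFinal
open GB.B3.Tower GB.B3.TWChars
open GB.B4.Twist.TwInst
open ModularFormClass CuspForm

namespace GB.B5.Glue.FramePD

section Frame

variable {N p K : ℕ} [NeZero N] {r e N' : ℕ → ℕ} (H : PrimeData N p K r e N')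
  (hp : p.Prime) (hp2 : p ≠ 2) (j : ℕ) (hj : j ≤ K)

/-- the list of the first `j` Taylor–Wiles primes -/
def LPD (r : ℕ → ℕ) (j : ℕ) : List ℕ := List.ofFn fun i : Fin j => r i

theorem LPD_eq (r : ℕ → ℕ) (j : ℕ) : LPD r j = List.ofFn fun i : Fin j => r i := rfl

theorem mem_LPD_iff (r : ℕ → ℕ) (j : ℕ) (r' : ℕ) : r' ∈ LPD r j ↔ ∃ i : Fin j, r i = r' := by
  unfold LPD
  rw [List.mem_ofFn]

/-- `mem_L` -/
theorem mem_L (r : ℕ → ℕ) (j : ℕ) (i : ℕ) (hi : i < j) : r i ∈ LPD r j :=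
  (mem_LPD_iff r j (r i)).mpr ⟨⟨i, hi⟩, rfl⟩

theorem prod_LPD (r : ℕ → ℕ) (j : ℕ) : (LPD r j).prod = ∏ i : Fin j, r i := by
  unfold LPD
  rw [List.prod_ofFn]

include H hj in
/-- `hθ` -/
theorem hθ :
    Function.Surjective (Theta (fun i => Multiplicative (ZMod (p ^ e i))) H.psi j) :=
  Theta_surjective H j hj

include hp hp2 in
/-- `hodd` -/
theorem hodd : Odd (Nat.card (∀ i : Fin j, Multiplicative (ZMod (p ^ e i)))) :=
  odd_card_pi hp hp2 e j

include H hj in
/-- `hL` -/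
theorem hL : ∀ r' ∈ LPD r j, r'.Prime := by
  intro r' hr'
  obtain ⟨i, rfl⟩ := (mem_LPD_iff r j r').mp hr'
  exact H.prime i (lt_of_lt_of_le i.2 hj)

include H hj in
theorem r_inj (i i' : Fin j) (h : r i = r i') : i = i' := by
  by_contra hne
  exact H.inj i i' (lt_of_lt_of_le i.2 hj) (lt_of_lt_of_le i'.2 hj)
    (fun h' => hne (Fin.ext h')) h

include H hj in
/-- `hnd` -/
theorem hnd : (LPD r j).Nodup := by
  unfold LPD
  rw [List.nodup_ofFn]
  exact fun i i' h => r_inj H j hj i i' h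

include H hj in
/-- `hdvd` -/
theorem hdvd : ∀ r' ∈ LPD r j, r' ∣ N := by
  intro r' hr'
  obtain ⟨i, rfl⟩ := (mem_LPD_iff r j r').mp hr'
  exact H.dvd i (lt_of_lt_of_le i.2 hj)

include H hj in
/-- `hsq` -/
theorem hsq : ∀ r' ∈ LPD r j, ¬ r' ^ 2 ∣ N := by
  intro r' hr' hsq
  obtain ⟨i, rfl⟩ := (mem_LPD_iff r j r').mp hr'
  have hlt : (i : ℕ) < K := lt_of_lt_of_le i.2 hj
  have hfact := H.fact i hlt
  have hcop := H.cop i hlt
  rw [hfact, pow_two] at hsq
  have h1 : r i ∣ N' i := Nat.dvd_of_mul_dvd_mul_left (H.prime i hlt).pos hsq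
  have h2 : r i ∣ Nat.gcd (r i) (N' i) := Nat.dvd_gcd dvd_rfl h1
  rw [hcop.gcd_eq_one, Nat.dvd_one] at h2
  exact (H.prime i hlt).one_lt.ne' h2

include H hj in
/-- the hypothesis `hpr1` of `TwInst.exists_tw_of_pr` -/
theorem hpr1 : ∀ r' ∈ LPD r j, ∀ (h : r' ∣ N) (u : (ZMod N)ˣ), ZMod.unitsMap h u = 1 →
    prFam (fun i => Multiplicative (ZMod (p ^ e i))) r (j := j) r'
      (Theta (fun i => Multiplicative (ZMod (p ^ e i))) H.psi j u) = 1 := by
  intro r' hr' h u hu
  obtain ⟨i, rfl⟩ := (mem_LPD_iff r j r').mp hr'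
  funext i'
  rw [prFam_apply, Theta_apply]
  split_ifs with hi
  · have : i' = i := r_inj H j hj i' i hi
    subst this
    exact H.psi_eq_one_of_unitsMap i' (lt_of_lt_of_le i'.2 hj) u hu
  · rfl

include H hj in
/-- `hpr` -/
theorem hpr : ∀ r' ∈ LPD r j, ∀ (h : r' ∣ N) (u : (ZMod N)ˣ),
    prFam (fun i => Multiplicative (ZMod (p ^ e i))) r (j := j) r'
        (Theta (fun i => Multiplicative (ZMod (p ^ e i))) H.psi j u)
      = θlocOf (Theta (fun i => Multiplicative (ZMod (p ^ e i))) H.psi j)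
          (prFam (fun i => Multiplicative (ZMod (p ^ e i))) r (j := j)) r'
          (ZMod.unitsMap h u) :=
  fun r' hr' h u => θlocOf_apply _ _ h (hpr1 H j hj r' hr' h) u

include H hj in
/-- `hprod` -/
theorem hprod : ∀ u : (ZMod N)ˣ,
    Theta (fun i => Multiplicative (ZMod (p ^ e i))) H.psi j u
      = ((LPD r j).map fun r' =>
          prFam (fun i => Multiplicative (ZMod (p ^ e i))) r (j := j) r'
            (Theta (fun i => Multiplicative (ZMod (p ^ e i))) H.psi j u)).prod := by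
  intro u
  unfold LPD
  funext i
  rw [Pi.list_prod_apply, List.map_map, List.map_ofFn, List.prod_ofFn]
  symm
  rw [Finset.prod_eq_single i]
  · show prFam (fun i => Multiplicative (ZMod (p ^ e i))) r (r i)
      (Theta (fun i => Multiplicative (ZMod (p ^ e i))) H.psi j u) i = _
    rw [prFam_apply, if_pos rfl]
  · intro i' _ hii
    show prFam (fun i => Multiplicative (ZMod (p ^ e i))) r (r i')
      (Theta (fun i => Multiplicative (ZMod (p ^ e i))) H.psi j u) i = 1
    rw [prFam_apply, if_neg (fun h => hii (r_inj H j hj i i' h).symm)]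
  · intro h
    exact absurd (Finset.mem_univ i) h

/-! ### the diamond generators -/

include H in
/-- the value of `θ` at the diamond generator `dd i` lives in the coordinate `i` -/
theorem pr_chi_dd (i : ℕ) :
    prFam (fun i => Multiplicative (ZMod (p ^ e i))) r (j := j) (r i)
        (chi (Theta (fun i => Multiplicative (ZMod (p ^ e i))) H.psi j) (H.dd hp i))
      = chi (Theta (fun i => Multiplicative (ZMod (p ^ e i))) H.psi j) (H.dd hp i) := by
  funext i'
  rw [prFam_apply, chi_apply, Theta_apply]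
  split_ifs with h
  · rfl
  · have hne : (i' : ℕ) ≠ i := fun h' => h (by rw [h'])
    exact (H.psi_dd_of_ne hp i' i hne).symm

include H hj in
/-- **`chi θ (dd i)` lies in the range of the local character at `r i`** -/
theorem chi_dd_mem_range (i : ℕ) (hi : i < j) :
    chi (Theta (fun i => Multiplicative (ZMod (p ^ e i))) H.psi j) (H.dd hp i)
      ∈ (θlocOf (Theta (fun i => Multiplicative (ZMod (p ^ e i))) H.psi j)
          (prFam (fun i => Multiplicative (ZMod (p ^ e i))) r (j := j)) (r i)).range := by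
  rw [← pr_chi_dd H hp j i, chi_apply,
    hpr H j hj (r i) (mem_L r j i hi) (H.dvd i (lt_of_lt_of_le hi hj)) (dUnits N (H.dd hp i))]
  exact ⟨_, rfl⟩

include H hj in
/-- powers of the diamond generator -/
theorem chi_dd_npow_mem_range (i : ℕ) (hi : i < j) (m : ℕ) :
    chi (Theta (fun i => Multiplicative (ZMod (p ^ e i))) H.psi j) (H.dd hp i ^ m)
      ∈ (θlocOf (Theta (fun i => Multiplicative (ZMod (p ^ e i))) H.psi j)
          (prFam (fun i => Multiplicative (ZMod (p ^ e i))) r (j := j)) (r i)).range := by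
  rw [map_pow]
  exact Subgroup.pow_mem _ (chi_dd_mem_range H hp j hj i hi) m

include H in
/-- **`chi θ (dd i)` has order dividing `p ^ e i`** -/
theorem chi_dd_pow (i : ℕ) :
    chi (Theta (fun i => Multiplicative (ZMod (p ^ e i))) H.psi j) (H.dd hp i) ^ p ^ e i = 1 := by
  funext i'
  rw [Pi.pow_apply, chi_apply, Theta_apply, Pi.one_apply]
  by_cases h : (i' : ℕ) = i
  · subst h
    have h1 := pow_orderOf_eq_one (H.psi i' (dUnits N (H.dd hp i')))
    rwa [H.orderOf_psi_dd hp i'] at h1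
  · rw [H.psi_dd_of_ne hp i' i h, one_pow]

include H in
/-- `chi θ (dd i)` is trivial when `i` is not among the first `j` indices -/
theorem chi_dd_of_le (i : ℕ) (hi : j ≤ i) :
    chi (Theta (fun i => Multiplicative (ZMod (p ^ e i))) H.psi j) (H.dd hp i) = 1 := by
  funext i'
  rw [chi_apply, Theta_apply, Pi.one_apply]
  exact H.psi_dd_of_ne hp i' i (fun h => absurd (h ▸ i'.2) (not_lt.mpr hi))

/-- the level: `N ∣ N * ∏ r i` -/
theorem dvd_level {N'' : ℕ} (hN'' : N'' = N * ∏ i : Fin j, r i) : N ∣ N'' := by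
  rw [hN'']
  exact Dvd.intro _ rfl

end Frame

/-! ### the packaged instance of `FinalT.exists_newform_of_point_idem_T` -/

section Packaged

variable {N p K : ℕ} [NeZero N] {r e N' : ℕ → ℕ} (H : PrimeData N p K r e N')
  (hp : p.Prime) (hp2 : p ≠ 2) (j : ℕ) (hj : j ≤ K)
  [Fintype (∀ i : Fin j, Multiplicative (ZMod (p ^ e i)))]
  {N'' : ℕ} [NeZero N'']
  (S : Set ℕ) (hS : ∀ q : ℕ, q.Prime → q ∣ N'' → q ∈ S) (hNN' : N ∣ N'')
  (dℓ : PrimesOff S → Gamma0 N)
  (hdℓ : ∀ (l : PrimesOff S) (u : (ZMod N)ˣ), (u : ZMod N) = ((l.1 : ℕ) : ZMod N) →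
    chi (Theta (fun i => Multiplicative (ZMod (p ^ e i))) H.psi j) (dℓ l) ^ 2
      * Theta (fun i => Multiplicative (ZMod (p ^ e i))) H.psi j u = 1)
  (tw : ↥(heckeAlgebra N'' 2 S) →+* Module.End ℂ ↥(parabolicHoms ℂ
    (GammaH (Theta (fun i => Multiplicative (ZMod (p ^ e i))) H.psi j)) ℂ))

/-- local instance (Prop-valued class) -/
local instance factPrimeOffFramePD {S : Set ℕ} (l : PrimesOff S) : Fact (l.1 : ℕ).Prime :=
  ⟨l.1.2⟩

variable
  (htw : ∀ (l : PrimesOff S) (v : ↥(parabolicHoms ℂ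
      (GammaH (Theta (fun i => Multiplicative (ZMod (p ^ e i))) H.psi j)) ℂ)),
    ((tw (formsGenS N'' S l) v : ↥(parabolicHoms ℂ
        (GammaH (Theta (fun i => Multiplicative (ZMod (p ^ e i))) H.psi j)) ℂ)) :
        Additive (GammaH (Theta (fun i => Multiplicative (ZMod (p ^ e i))) H.psi j)) →+ ℂ)
      = diaH (Theta (fun i => Multiplicative (ZMod (p ^ e i))) H.psi j) ℂ (dℓ l)
          (GamH.TH (Theta (fun i => Multiplicative (ZMod (p ^ e i))) H.psi j) ℂ
            (not_dvd_level S hS hNN' l)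
            (v : Additive (GammaH
              (Theta (fun i => Multiplicative (ZMod (p ^ e i))) H.psi j)) →+ ℂ)))

include hp hp2 hj hdℓ htw in
/-- **B5-POINT at the Taylor–Wiles prime data**: `FinalT.exists_newform_of_point_idem_T` with the
frame discharged; the framed prime is `r i₀`, `i₀ < j`. -/
theorem exists_newform_of_point_idem_PD {D : Type*} [CommRing D] [IsDomain D] [CharZero D]
    (χ : ↥(heckeAlgebra N'' 2 S) →+* D) {i₀ : ℕ} (hi₀ : i₀ < j)
    {J : Type*} (s : Finset J) (hs : s.Nonempty) (d : J → Gamma0 N)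
    (hd : ∀ a ∈ s, chi (Theta (fun i => Multiplicative (ZMod (p ^ e i))) H.psi j) (d a)
      ∈ (θlocOf (Theta (fun i => Multiplicative (ZMod (p ^ e i))) H.psi j)
          (prFam (fun i => Multiplicative (ZMod (p ^ e i))) r (j := j)) (r i₀)).range)
    (n : ℤ)
    (he : ∀ v : ↥(parabolicHoms ℂ
        (GammaH (Theta (fun i => Multiplicative (ZMod (p ^ e i))) H.psi j)) ℂ),
      (∑ i ∈ s, diaV (Theta (fun i => Multiplicative (ZMod (p ^ e i))) H.psi j) ℂ (d i)
          (∑ a ∈ s, diaV (Theta (fun i => Multiplicative (ZMod (p ^ e i))) H.psi j) ℂ (d a) v))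
        = n • ∑ a ∈ s, diaV (Theta (fun i => Multiplicative (ZMod (p ^ e i))) H.psi j) ℂ (d a) v)
    (hann : ∀ t : ↥(heckeAlgebra N'' 2 S),
      (∀ v : ↥(parabolicHoms ℂ
          (GammaH (Theta (fun i => Multiplicative (ZMod (p ^ e i))) H.psi j)) ℂ),
        tw t (n • v - ∑ a ∈ s,
          diaV (Theta (fun i => Multiplicative (ZMod (p ^ e i))) H.psi j) ℂ (d a) v) = 0) →
      χ t = 0) :
    ∃ ι : ↥χ.range →+* ℂ, Function.Injective ι ∧ ∃ (M : ℕ) (g : CuspForm (Gamma0 M) 2),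
      M ≠ 0 ∧ M ∣ N * ∏ i : Fin j, r i ∧ (∀ q : ℕ, q.Prime → q ∣ M → q ∣ N) ∧ g.IsNewform ∧
      (∀ (ℓ : ℕ) (hℓ : ℓ.Prime) (hℓN : ¬ ℓ ∣ N'') (hℓS : ℓ ∉ S),
        ι (χ.rangeRestrict (heckeAlgebra.T hℓ hℓN hℓS)) = qCoeff g ℓ) ∧
      M.factorization (r i₀) = 2 := by
  have h := GB.B5.Point.exists_newform_of_point_idem_T
    (Theta (fun i => Multiplicative (ZMod (p ^ e i))) H.psi j) (hθ H j hj) (hodd hp hp2 j)
    (LPD r j) (hL H j hj) (hnd H j hj) (hdvd H j hj) (hsq H j hj)
    (θlocOf (Theta (fun i => Multiplicative (ZMod (p ^ e i))) H.psi j)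
      (prFam (fun i => Multiplicative (ZMod (p ^ e i))) r (j := j)))
    (prFam (fun i => Multiplicative (ZMod (p ^ e i))) r (j := j))
    (hpr H j hj) (hprod H j hj) S hS hNN' dℓ hdℓ tw htw χ (mem_L r j i₀ hi₀) s hs d hd n he hann
  rw [prod_LPD] at h
  exact h

end Packaged

end GB.B5.Glue.FramePD

end Fermat.Agent.GE8.P3B
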