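/-
GATE-B / GB-B5-GLUE-HNU (helper35), file 4: **B5 at B3's Plug level** — in the binder spelling of
helper52's `GB/B7/Kill1TQ.he_plug` (G2 outputs `χ a twM ha twP hfmk hT`, G3 output `ρQ hρ`):

* `hnu_plug` : the binder `hnu` of `LevelMulti.nonempty_TWInput_multi` / `G1.TWSet.exists_level1`
  for `a₂` on `(Plug.tw Sy 𝔪 H h 1 k c hc hc1).Lχ.M`;
* `hB5_plug` : the binders `hB5₁ hB5₂` of `ProviderFlat/G4Asm.exists_x_of_residual` for ANY level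
  `L` which is an equivariant quotient `π : (bigLevel …).M ↠ L.M` (`L := tw.L1`, `tw.Lχ`,
  `π := fmk`), at the Taylor–Wiles diamond `i` — which sits at the prime `r (k - 1 - i)`
  (`Tower.dfun_apply`: the newest step is in front).

Instances of `Glue/HnuPoint.hnu_of_squares_cyclic` / `not_isUnipotentOnInertiaAt_of_squares_cyclic`
at

* `θ := Theta (Δs p e) H.psi (1 + k)`, frame = `Glue/FramePD` (helper41),
* `P := (bigLevel Sy 𝔪 H h (1 + k)).M`, `ι := (bigReal …).ι` (into the parabolic classes by `hbnd`),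
* `tw_ℂ`, `tw_O` := `TwInst.exists_tw_primeData` at the half-diamonds chosen from `hT`.

Compile pass (helper6, warm box): `square_of_gens` (the `ι`-square by generator induction, stated
for ABSTRACT modules: no unfolding of `bigLevel`), `hnu_plug_gen` (`hnu` for ANY torsion-free
nontrivial quotient `π : (bigLevel …).M ↠ M` with the framed diamond acting by a scalar `c0 ≠ 1`;
the proof destructures `exists_tw_data` in a context WITHOUT hypotheses over `(Plug.tw …).Lχ.M`,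
which is what made `rcases` time out), `piChi` (`= fmk` as a linear map onto `(Plug.tw …).Lχ.M`,
top-level def) and `hnu_plug` = `hnu_plug_gen` at `piChi` in term mode (statement unchanged).
-/
import Mathlib
import Fermat.Agent.GB.B5.Glue.HnuPoint
import Fermat.Agent.GE8.P3B.GB.B5.Glue.FramePD
import Fermat.Agent.GE8.P3B.GB.B4.Twist.TwInst
import Fermat.Agent.GE8.P3B.GB.B3.Plug
import Fermat.Agent.GB.Alg.UnitLevel
import Fermat.Agent.GE8.P3B.StepGen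
import Fermat.Agent.GE8.P3B.Ok3W

/- TWIN (helper6 B4 generator; conventions of helper24 / helper86) of `Fermat.Agent.GB.B5.Glue.HnuPlug` with `p ≠ 3` relaxed to `Ok3A Sy 𝔪 p` / `Ok3W p W` (RISK-5 fix (B), step B4); everything below lives in the wrapper namespace `Fermat.Agent.GE8.P3B`. -/
set_option linter.dupNamespace false
open Fermat Fermat.Agent Fermat.Agent.Common_helper32 Fermat.Agent.GB Fermat.Agent.GB.B3 Fermat.Agent.GB.B3.ChiLevelMulti Fermat.Agent.GB.B3.EisGamma0 Fermat.Agent.GB.B3.GamH Fermat.Agent.GB.B3.HeckeAct Fermat.Agent.GB.B3.HeckeActH Fermat.Agent.GB.B3.RealLevel Fermat.Agent.GB.B3.TWChars Fermat.Agent.GB.B3.TWLevel Fermat.Agent.GB.B4 Fermat.Agent.GB.B4.Twist Fermat.Agent.GB.B4.Twist.Asm Fermat.Agent.GB.B4.Twist.TwFinal Fermat.Agent.GB.B5 Fermat.Agent.GB.B5.Glue Fermat.Agent.GJ Fermat.Agent.GJ.J2 Fermat.Agent.GJ.J2.Lat Fermat.Agent.GM Fermat.Agent.GM.B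

namespace Fermat.Agent.GE8.P3B

set_option autoImplicit false
set_option linter.unusedSectionVars false
set_option linter.unusedVariables false
set_option linter.style.haveILetI false

open scoped MatrixGroups
open CongruenceSubgroup Polynomial IsLocalRing CuspForm
open GM.B ModularCurve.Period
open GB.B3 GB.B3.EisGamma0 GB.B3.GamH
open GB.B3.RealLevel GB.B3.HeckeActH GB.B3.HeckeAct
open GB.B3.TWChars GB.B3.Tower GB.B3.FinalTW
open GB.B3.Plug GB.B3.ChiLevelMulti GB.B3.TWLevel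
open GB.B3.StepInst GB.B3.Final
open GJ.J2.Lat
open GB.B4.Twist.Asm GB.B4.Twist.TwFinal GB.B4.Twist.TwInst

namespace GB.B5.Glue.HnuPlug

open Common_helper32

/-- local instance (Prop-valued class) -/
local instance factPrimeOffPlug {S : Set ℕ} (l : PrimesOff S) : Fact (l.1 : ℕ).Prime := ⟨l.1.2⟩

/-! ### a geometric sum identity in a (non-commutative) ring -/

/-- `∑_{j < p q} x^j = (∑_{j < p} x^j) (∑_{l < q} (x^p)^l)`. -/
theorem geom_sum_mul_eq {R : Type*} [Semiring R] (x : R) (p q : ℕ) :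
    ∑ j ∈ Finset.range (p * q), x ^ j
      = (∑ j ∈ Finset.range p, x ^ j) * ∑ l ∈ Finset.range q, (x ^ p) ^ l := by
  induction q with
  | zero => rw [Nat.mul_zero, Finset.range_zero, Finset.sum_empty, Finset.sum_empty, mul_zero]
  | succ q ih =>
    have h1 : ∑ j ∈ Finset.range (p * (q + 1)), x ^ j
        = ∑ j ∈ Finset.range (p * q), x ^ j + ∑ j ∈ Finset.range p, x ^ (p * q + j) := by
      rw [Nat.mul_succ]
      exact Finset.sum_range_add (fun j => x ^ j) (p * q) p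
    have h2 : ∑ l ∈ Finset.range (q + 1), (x ^ p) ^ l
        = ∑ l ∈ Finset.range q, (x ^ p) ^ l + (x ^ p) ^ q :=
      Finset.sum_range_succ (fun l => (x ^ p) ^ l) q
    rw [h1, ih, h2, mul_add]
    congr 1
    rw [Finset.sum_mul]
    refine Finset.sum_congr rfl fun j _ => ?_
    rw [← pow_mul, ← pow_add, Nat.add_comm]

/-- an intertwining relation checked on ring generators -/
theorem square_of_gens {A O P V : Type*} [Ring A] [CommRing O] [AddCommGroup P] [Module O P]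
    [AddCommGroup V] [Module O V] (ι : P →ₗ[O] V) (twP : A →+* Module.End O P)
    (twO : A →+* Module.End O V) (G : Set A) (hG : Subring.closure G = ⊤)
    (hgen : ∀ g ∈ G, ∀ y, ι (twP g y) = twO g (ι y)) (t : A) (y : P) :
    ι (twP t y) = twO t (ι y) := by
  have ht : t ∈ Subring.closure G := by
    rw [hG]
    exact Subring.mem_top t
  induction ht using Subring.closure_induction generalizing y with
  | mem x hx => exact hgen x hx y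
  | zero => rw [map_zero, map_zero, LinearMap.zero_apply, LinearMap.zero_apply, map_zero]
  | one => rw [map_one, map_one, Module.End.one_apply, Module.End.one_apply]
  | add a b _ _ ha hb =>
    rw [map_add, map_add, LinearMap.add_apply, LinearMap.add_apply, map_add, ha, hb]
  | neg a _ ha => rw [map_neg, map_neg, LinearMap.neg_apply, LinearMap.neg_apply, map_neg, ha]
  | mul a b _ _ ha hb =>
    rw [map_mul, map_mul, Module.End.mul_apply, Module.End.mul_apply, ha, hb]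

section Plug

variable {N p K : ℕ} [NeZero N] [hpF : Fact p.Prime] {r e N' : ℕ → ℕ}
variable (Sy : Symbols N)
variable {O : Type} [CommRing O] [IsDomain O] [IsDiscreteValuationRing O]
  [IsAdicComplete (maximalIdeal O) O] [CharZero O] [Finite (ResidueField O)]
variable (𝔪 : Ideal (Sy.𝕋 O)) [𝔪.IsMaximal]
variable (H : PrimeData N p K r e N') {ϖ : O} {s0 : Sy.ι₁} (h : Plug.Hyp Sy 𝔪 p ϖ s0)
variable (k : ℕ)
variable {TQ : Type} [CommRing TQ] [IsLocalRing TQ] [Algebra O TQ]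

/-! ### the common data: `ι`, the half-diamonds, `tw_ℂ`, `tw_O`, the `ι`-square -/

/-- the realisation of the big level inside the parabolic classes -/
noncomputable def iotaV
    (hbnd : ∀ y : Additive (GammaH (Theta (Δs p e) H.psi (1 + k))) →+ O,
      IsLoc (actH Sy O (Theta (Δs p e) H.psi (1 + k))) 𝔪 y →
        y ∈ parabolicHoms O (GammaH (Theta (Δs p e) H.psi (1 + k))) O) :
    (bigLevel Sy 𝔪 H h (1 + k)).M →ₗ[O]
      ↥(parabolicHoms O (GammaH (Theta (Δs p e) H.psi (1 + k))) O) :=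
  LinearMap.codRestrict _ (bigReal Sy 𝔪 H h (1 + k)).ι
    (fun x => hbnd _ (((bigReal Sy 𝔪 H h (1 + k)).range _).1 ⟨x, rfl⟩))

theorem coe_iotaV
    (hbnd : ∀ y : Additive (GammaH (Theta (Δs p e) H.psi (1 + k))) →+ O,
      IsLoc (actH Sy O (Theta (Δs p e) H.psi (1 + k))) 𝔪 y →
        y ∈ parabolicHoms O (GammaH (Theta (Δs p e) H.psi (1 + k))) O)
    (x : (bigLevel Sy 𝔪 H h (1 + k)).M) :
    ((iotaV Sy 𝔪 H h k hbnd x :
        ↥(parabolicHoms O (GammaH (Theta (Δs p e) H.psi (1 + k))) O)) :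
      Additive (GammaH (Theta (Δs p e) H.psi (1 + k))) →+ O)
      = (bigReal Sy 𝔪 H h (1 + k)).ι x := rfl

theorem iotaV_injective
    (hbnd : ∀ y : Additive (GammaH (Theta (Δs p e) H.psi (1 + k))) →+ O,
      IsLoc (actH Sy O (Theta (Δs p e) H.psi (1 + k))) 𝔪 y →
        y ∈ parabolicHoms O (GammaH (Theta (Δs p e) H.psi (1 + k))) O) :
    Function.Injective (iotaV Sy 𝔪 H h k hbnd) := fun x y hxy =>
  (bigReal Sy 𝔪 H h (1 + k)).inj (by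
    rw [← coe_iotaV Sy 𝔪 H h k hbnd x, ← coe_iotaV Sy 𝔪 H h k hbnd y, hxy])

/-- the diamond at the step `j - 1 - i` -/
theorem iotaV_D
    (hbnd : ∀ y : Additive (GammaH (Theta (Δs p e) H.psi (1 + k))) →+ O,
      IsLoc (actH Sy O (Theta (Δs p e) H.psi (1 + k))) 𝔪 y →
        y ∈ parabolicHoms O (GammaH (Theta (Δs p e) H.psi (1 + k))) O)
    (i : Fin (1 + k)) (y : (bigLevel Sy 𝔪 H h (1 + k)).M) :
    iotaV Sy 𝔪 H h k hbnd ((bigLevel Sy 𝔪 H h (1 + k)).D i y)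
      = diaV (Theta (Δs p e) H.psi (1 + k)) O (H.dd hpF.out (1 + k - 1 - i))
          (iotaV Sy 𝔪 H h k hbnd y) := by
  apply Subtype.ext
  rw [coe_diaV, coe_iotaV, coe_iotaV, (bigReal Sy 𝔪 H h (1 + k)).ι_D, diaLin_apply, dfun_apply]

/-- **the common data** of the plug instances. -/
theorem exists_tw_data (hk : 1 + k ≤ K)
    (hbnd : ∀ y : Additive (GammaH (Theta (Δs p e) H.psi (1 + k))) →+ O,
      IsLoc (actH Sy O (Theta (Δs p e) H.psi (1 + k))) 𝔪 y →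
        y ∈ parabolicHoms O (GammaH (Theta (Δs p e) H.psi (1 + k))) O)
    (S : Finset ℕ) {N'' : ℕ} [NeZero N''] (hN'' : N'' = N * ∏ i : Fin (1 + k), r i)
    (hSN'' : ∀ ℓ : ℕ, ℓ.Prime → ℓ ∣ N'' → ℓ ∈ (↑S : Set ℕ)) (hNN'' : N ∣ N'')
    (twP : ↥(heckeAlgebra N'' 2 (↑S : Set ℕ)) →+* Module.End O (bigLevel Sy 𝔪 H h (1 + k)).M)
    (hT : ∀ (ℓ : ℕ) (hℓ : ℓ.Prime) (hℓN' : ¬ ℓ ∣ N'') (hℓS : ℓ ∉ (↑S : Set ℕ))
        (hℓN : ¬ ℓ ∣ N),
      haveI : Fact ℓ.Prime := ⟨hℓ⟩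
      ∃ d : Gamma0 N,
        (∀ u : (ZMod N)ˣ, (u : ZMod N) = ((ℓ : ℕ) : ZMod N) →
          chi (Theta (Δs p e) H.psi (1 + k)) d ^ 2 * Theta (Δs p e) H.psi (1 + k) u = 1) ∧
        ∀ x : (bigLevel Sy 𝔪 H h (1 + k)).M,
          (bigReal Sy 𝔪 H h (1 + k)).ι (twP (heckeAlgebra.T hℓ hℓN' hℓS) x)
            = diaH (Theta (Δs p e) H.psi (1 + k)) O d
                (TH (Theta (Δs p e) H.psi (1 + k)) O hℓN ((bigReal Sy 𝔪 H h (1 + k)).ι x))) :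
    ∃ (dℓ : PrimesOff (↑S : Set ℕ) → Gamma0 N)
      (twC : ↥(heckeAlgebra N'' 2 (↑S : Set ℕ)) →+*
        Module.End ℂ ↥(parabolicHoms ℂ (GammaH (Theta (Δs p e) H.psi (1 + k))) ℂ))
      (twO : ↥(heckeAlgebra N'' 2 (↑S : Set ℕ)) →+*
        Module.End O ↥(parabolicHoms O (GammaH (Theta (Δs p e) H.psi (1 + k))) O)),
      (∀ (l : PrimesOff (↑S : Set ℕ)) (u : (ZMod N)ˣ), (u : ZMod N) = ((l.1 : ℕ) : ZMod N) →
        chi (Theta (Δs p e) H.psi (1 + k)) (dℓ l) ^ 2 * Theta (Δs p e) H.psi (1 + k) u = 1) ∧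
      (∀ (l : PrimesOff (↑S : Set ℕ))
          (v : ↥(parabolicHoms ℂ (GammaH (Theta (Δs p e) H.psi (1 + k))) ℂ)),
        ((twC (formsGenS N'' (↑S : Set ℕ) l) v :
            ↥(parabolicHoms ℂ (GammaH (Theta (Δs p e) H.psi (1 + k))) ℂ)) :
            Additive (GammaH (Theta (Δs p e) H.psi (1 + k))) →+ ℂ)
          = diaH (Theta (Δs p e) H.psi (1 + k)) ℂ (dℓ l)
              (GamH.TH (Theta (Δs p e) H.psi (1 + k)) ℂ
                (not_dvd_level (↑S : Set ℕ) hSN'' hNN'' l)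
                (v : Additive (GammaH (Theta (Δs p e) H.psi (1 + k))) →+ ℂ))) ∧
      (∀ (l : PrimesOff (↑S : Set ℕ))
          (v : ↥(parabolicHoms O (GammaH (Theta (Δs p e) H.psi (1 + k))) O)),
        ((twO (formsGenS N'' (↑S : Set ℕ) l) v :
            ↥(parabolicHoms O (GammaH (Theta (Δs p e) H.psi (1 + k))) O)) :
            Additive (GammaH (Theta (Δs p e) H.psi (1 + k))) →+ O)
          = diaH (Theta (Δs p e) H.psi (1 + k)) O (dℓ l)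
              (GamH.TH (Theta (Δs p e) H.psi (1 + k)) O
                (not_dvd_level (↑S : Set ℕ) hSN'' hNN'' l)
                (v : Additive (GammaH (Theta (Δs p e) H.psi (1 + k))) →+ O))) ∧
      ∀ t y, iotaV Sy 𝔪 H h k hbnd (twP t y) = twO t (iotaV Sy 𝔪 H h k hbnd y) := by
  classical
  have hp : p.Prime := hpF.out
  -- the half-diamonds
  have hexd : ∀ l : PrimesOff (↑S : Set ℕ), ∃ d : Gamma0 N,
      (∀ u : (ZMod N)ˣ, (u : ZMod N) = ((l.1 : ℕ) : ZMod N) →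
        chi (Theta (Δs p e) H.psi (1 + k)) d ^ 2 * Theta (Δs p e) H.psi (1 + k) u = 1) ∧
      ∀ x : (bigLevel Sy 𝔪 H h (1 + k)).M,
        (bigReal Sy 𝔪 H h (1 + k)).ι
            (twP (heckeAlgebra.T l.1.2 (not_dvd_level' (↑S : Set ℕ) hSN'' l) l.2) x)
          = diaH (Theta (Δs p e) H.psi (1 + k)) O d
              (TH (Theta (Δs p e) H.psi (1 + k)) O
                (not_dvd_level (↑S : Set ℕ) hSN'' hNN'' l)
                ((bigReal Sy 𝔪 H h (1 + k)).ι x)) := fun l =>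
    hT (l.1 : ℕ) l.1.2 (not_dvd_level' (↑S : Set ℕ) hSN'' l) l.2
      (not_dvd_level (↑S : Set ℕ) hSN'' hNN'' l)
  choose dℓ hdℓ hdℓT using hexd
  obtain ⟨twC, htwC, -⟩ := exists_tw_primeData H hp h.hp2 (1 + k) hk hN'' (↑S : Set ℕ) hSN''
    (O := ℂ) dℓ hdℓ
  obtain ⟨twO, htwO, -⟩ := exists_tw_primeData H hp h.hp2 (1 + k) hk hN'' (↑S : Set ℕ) hSN''
    (O := O) dℓ hdℓ
  refine ⟨dℓ, twC, twO, hdℓ, htwC, htwO, ?_⟩
  refine square_of_gens (iotaV Sy 𝔪 H h k hbnd) twP twO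
    (Set.range (formsGenS N'' (↑S : Set ℕ)))
    (GB.B4.Twist.TwHom.closure_range_formsGenS N'' (↑S : Set ℕ)) ?_
  rintro _ ⟨l, rfl⟩ y
  apply Subtype.ext
  have e0 := coe_iotaV Sy 𝔪 H h k hbnd (twP (formsGenS N'' (↑S : Set ℕ) l) y)
  have e4 := coe_iotaV Sy 𝔪 H h k hbnd y
  have e1 := htwO l (iotaV Sy 𝔪 H h k hbnd y)
  rw [e4] at e1
  have e3 := formsGenS_of_not_dvd N'' (↑S : Set ℕ) l (not_dvd_level' (↑S : Set ℕ) hSN'' l)
  have e2 := hdℓT l y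
  rw [← e3] at e2
  exact e0.trans (e2.trans e1.symm)

/-! ### `hB5₁ hB5₂` at the Taylor–Wiles diamonds -/

/-- **`hB5₁ hB5₂` (G4), plug form**: `L` any level which is an equivariant quotient
`π : (bigLevel …).M ↠ L.M` (`tw.L1`, `tw.Lχ` with `π := fmk`), `i` a Taylor–Wiles diamond.  At
every local point `x` of `TQ` killing the annihilator of `L.M / unitSub i`, `ρQ ⊗_x O'` is NOT
unipotent on inertia at the prime `r (k - 1 - i)` of the diamond `i`. -/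
theorem hB5_plug (hk : 1 + k ≤ K)
    (hbnd : ∀ y : Additive (GammaH (Theta (Δs p e) H.psi (1 + k))) →+ O,
      IsLoc (actH Sy O (Theta (Δs p e) H.psi (1 + k))) 𝔪 y →
        y ∈ parabolicHoms O (GammaH (Theta (Δs p e) H.psi (1 + k))) O)
    (S : Finset ℕ) (hpS : p ∈ S)
    {N'' : ℕ} [NeZero N''] (hN'' : N'' = N * ∏ i : Fin (1 + k), r i)
    (hSN'' : ∀ ℓ : ℕ, ℓ.Prime → ℓ ∣ N'' → ℓ ∈ (↑S : Set ℕ))
    (ρQ : GaloisRepAdic TQ)
    (χ : ↥(heckeAlgebra N'' 2 (↑S : Set ℕ)) →+* TQ)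
    {𝕋' : Type} [CommRing 𝕋'] [Algebra O 𝕋'] {M0' : Type} [AddCommGroup M0'] [Module O M0']
    {act0' : 𝕋' →ₐ[O] Module.End O M0'} {Nk : Fin k → ℕ} [∀ i, NeZero (Nk i)]
    (L : FreeLevel O 𝕋' M0' act0' k Nk) (hNk : ∀ i, p ∣ Nk i)
    (π : (bigLevel Sy 𝔪 H h (1 + k)).M →ₗ[O] L.M) (hπ : Function.Surjective π)
    (hπD : ∀ i y, π ((bigLevel Sy 𝔪 H h (1 + k)).D (Fin.natAdd 1 i) y) = L.D i (π y))
    (a : TQ →ₐ[O] Module.End O L.M) (a_D : ∀ t i, a t * L.D i = L.D i * a t)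
    (twM : ↥(heckeAlgebra N'' 2 (↑S : Set ℕ)) →+* Module.End O L.M)
    (ha : ∀ t, a (χ t) = twM t)
    (twP : ↥(heckeAlgebra N'' 2 (↑S : Set ℕ)) →+* Module.End O (bigLevel Sy 𝔪 H h (1 + k)).M)
    (hfmk : ∀ t (y : (bigLevel Sy 𝔪 H h (1 + k)).M), twM t (π y) = π (twP t y))
    (hT : ∀ (ℓ : ℕ) (hℓ : ℓ.Prime) (hℓN' : ¬ ℓ ∣ N'') (hℓS : ℓ ∉ (↑S : Set ℕ))
        (hℓN : ¬ ℓ ∣ N),
      haveI : Fact ℓ.Prime := ⟨hℓ⟩
      ∃ d : Gamma0 N,
        (∀ u : (ZMod N)ˣ, (u : ZMod N) = ((ℓ : ℕ) : ZMod N) →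
          chi (Theta (Δs p e) H.psi (1 + k)) d ^ 2 * Theta (Δs p e) H.psi (1 + k) u = 1) ∧
        ∀ x : (bigLevel Sy 𝔪 H h (1 + k)).M,
          (bigReal Sy 𝔪 H h (1 + k)).ι (twP (heckeAlgebra.T hℓ hℓN' hℓS) x)
            = diaH (Theta (Δs p e) H.psi (1 + k)) O d
                (TH (Theta (Δs p e) H.psi (1 + k)) O hℓN ((bigReal Sy 𝔪 H h (1 + k)).ι x)))
    (hρ : ∀ (ℓ : ℕ) (hℓ : ℓ.Prime) (hℓN' : ¬ ℓ ∣ N'') (hℓS : ℓ ∉ (↑S : Set ℕ))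
      (A : ValuationSubring Qb), A.LiesOverPrime ℓ → ∀ σ : GQ, A.IsFrobeniusAt σ ℓ →
        LinearMap.charpoly (ρQ.ρ σ)
          = X ^ 2 - C (χ (heckeAlgebra.T hℓ hℓN' hℓS)) * X + C ((ℓ : TQ)))
    (i : Fin k) (hei : 1 ≤ e (k - 1 - i)) (hrp : r (k - 1 - i) ≠ p)
    {O' : Type} [CommRing O'] [IsDomain O'] [IsDiscreteValuationRing O']
    [IsAdicComplete (maximalIdeal O') O'] [Finite (ResidueField O')] [CharZero O']
    (hpO' : (p : O') ∈ maximalIdeal O') (x : TQ →+* O') (hx : IsLocalHom x)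
    (hocc : ∀ t : TQ, (∀ m, a t m ∈ L.unitSub p hNk i) → x t = 0) :
    ¬ (ρQ.baseChangeAlong x hx).IsUnipotentOnInertiaAt (r (k - 1 - i)) := by
  classical
  have hp : p.Prime := hpF.out
  have hNN'' : N ∣ N'' := Dvd.intro _ hN''.symm
  obtain ⟨dℓ, twC, twO, hdℓ, htwC, htwO, hιT⟩ :=
    exists_tw_data Sy 𝔪 H h k hk hbnd S hN'' hSN'' hNN'' twP hT
  have hidx : 1 + k - 1 - ((Fin.natAdd 1 i : Fin (1 + k)) : ℕ) = k - 1 - i := by
    rw [Fin.val_natAdd]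
    omega
  have hιD : ∀ y, iotaV Sy 𝔪 H h k hbnd ((bigLevel Sy 𝔪 H h (1 + k)).D (Fin.natAdd 1 i) y)
      = diaV (Theta (Δs p e) H.psi (1 + k)) O (H.dd hp (k - 1 - i))
          (iotaV Sy 𝔪 H h k hbnd y) := by
    intro y
    rw [iotaV_D, hidx]
  have hπT : ∀ t y, π (twP t y) = a (χ t) (π y) := by
    intro t y
    rw [ha]
    exact (hfmk t y).symm
  have hlt : k - 1 - (i : ℕ) < 1 + k := by omega
  haveI : NeZero (p ^ e (k - 1 - i)) := ⟨pow_ne_zero _ hp.ne_zero⟩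
  -- `∑_{j < p^E} D^j` lands in `unitSub`
  have hsum : ∀ m, ∑ j : Fin (p ^ e (k - 1 - i)), ((L.D i) ^ (j : ℕ)) m ∈ L.unitSub p hNk i := by
    intro m
    obtain ⟨E, hE⟩ : ∃ E, e (k - 1 - i) = E + 1 := ⟨e (k - 1 - i) - 1, by omega⟩
    have h1 : ∑ j : Fin (p ^ e (k - 1 - i)), ((L.D i) ^ (j : ℕ)) m
        = (∑ j ∈ Finset.range (p ^ e (k - 1 - i)), (L.D i) ^ j) m := by
      rw [Fin.sum_univ_eq_sum_range (fun j => ((L.D i) ^ j) m), LinearMap.sum_apply]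
    rw [h1, hE, pow_succ', geom_sum_mul_eq, Module.End.mul_apply]
    exact L.range_le_unitSub p hNk i (Submodule.mem_sup_left ⟨_, rfl⟩)
  refine GB.B5.Glue.HnuPoint.not_isUnipotentOnInertiaAt_of_squares_cyclic
    (Theta (Δs p e) H.psi (1 + k))
    (FramePD.hθ H (1 + k) hk) (FramePD.hodd hp h.hp2 (1 + k))
    _ (FramePD.hL H (1 + k) hk) (FramePD.hnd H (1 + k) hk)
    (FramePD.hdvd H (1 + k) hk) (FramePD.hsq H (1 + k) hk) _ _
    (FramePD.hpr H (1 + k) hk) (FramePD.hprod H (1 + k) hk)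
    S hSN'' hNN'' dℓ hdℓ twC htwC
    (GB.B5.Glue.HnuPoint.zsmul_eq_zero_of_charZero (R := O)) twO htwO p h.hp2 hpS χ
    ρQ hρ hpO' x hx (FramePD.mem_L r (1 + k) (k - 1 - i) hlt) hrp
    (H.dd hp (k - 1 - i)) (FramePD.chi_dd_mem_range H hp (1 + k) hk (k - 1 - i) hlt)
    (p ^ e (k - 1 - i)) (FramePD.chi_dd_pow H hp (1 + k) (k - 1 - i))
    (iotaV Sy 𝔪 H h k hbnd) (iotaV_injective Sy 𝔪 H h k hbnd) π hπ (fun t => twP t) a hιT hπT
    ((bigLevel Sy 𝔪 H h (1 + k)).D (Fin.natAdd 1 i)) hιD (L.D i) (hπD i)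
    (L.unitSub p hNk i)
    (fun t m hm => L.map_mem_unitSub p hNk i (a t) (fun j => a_D t j) hm) hsum
    (fun m hm => ?_) hocc
  have hm' : ((p ^ e (k - 1 - i) : ℕ) : O) • m ∈ L.unitSub p hNk i := by
    rw [Nat.cast_smul_eq_nsmul, ← natCast_zsmul]
    exact hm
  refine L.mem_unitSub_of_smul_mem p hNk i _ (fun o ho => ?_) hm'
  rcases mul_eq_zero.mp ho with h0 | h0
  · exact absurd (Nat.cast_eq_zero.mp h0) (pow_ne_zero _ hp.ne_zero)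
  · exact h0

/-! ### `hnu` at the framed diamond -/

variable [Module.Finite O TQ] [IsReduced TQ]

/-- **`hnu`, plug form, generic in the quotient**: `M` any torsion-free nontrivial quotient
`π : (bigLevel …).M ↠ M` on which the framed diamond `B.D (Fin.castAdd k 0)` (the diamond at
`r k`) acts by the scalar `c0 ≠ 1`, `c0 ^ p ^ e k = 1`. -/
theorem hnu_plug_gen (hk : 1 + k ≤ K)
    (hbnd : ∀ y : Additive (GammaH (Theta (Δs p e) H.psi (1 + k))) →+ O,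
      IsLoc (actH Sy O (Theta (Δs p e) H.psi (1 + k))) 𝔪 y →
        y ∈ parabolicHoms O (GammaH (Theta (Δs p e) H.psi (1 + k))) O)
    (S : Finset ℕ) (hpS : p ∈ S) (hrp : r k ≠ p) (hpO : (p : O) ∈ maximalIdeal O)
    {N'' : ℕ} [NeZero N''] (hN'' : N'' = N * ∏ i : Fin (1 + k), r i)
    (hSN'' : ∀ ℓ : ℕ, ℓ.Prime → ℓ ∣ N'' → ℓ ∈ (↑S : Set ℕ))
    (ρQ : GaloisRepAdic TQ)
    (χ : ↥(heckeAlgebra N'' 2 (↑S : Set ℕ)) →+* TQ)
    {M : Type} [AddCommGroup M] [Module O M] [Module.IsTorsionFree O M] [Nontrivial M]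
    (π : (bigLevel Sy 𝔪 H h (1 + k)).M →ₗ[O] M) (hπ : Function.Surjective π)
    (c0 : O) (hcn : c0 ^ p ^ e k = 1) (hc0 : c0 ≠ 1)
    (hπD : ∀ y, π ((bigLevel Sy 𝔪 H h (1 + k)).D (Fin.castAdd k 0) y) = c0 • π y)
    (a₂ : TQ →ₐ[O] Module.End O M)
    (twχ : ↥(heckeAlgebra N'' 2 (↑S : Set ℕ)) →+* Module.End O M)
    (ha : ∀ t, a₂ (χ t) = twχ t)
    (twP : ↥(heckeAlgebra N'' 2 (↑S : Set ℕ)) →+* Module.End O (bigLevel Sy 𝔪 H h (1 + k)).M)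
    (hfmk : ∀ t (x : (bigLevel Sy 𝔪 H h (1 + k)).M), twχ t (π x) = π (twP t x))
    (hT : ∀ (ℓ : ℕ) (hℓ : ℓ.Prime) (hℓN' : ¬ ℓ ∣ N'') (hℓS : ℓ ∉ (↑S : Set ℕ))
        (hℓN : ¬ ℓ ∣ N),
      haveI : Fact ℓ.Prime := ⟨hℓ⟩
      ∃ d : Gamma0 N,
        (∀ u : (ZMod N)ˣ, (u : ZMod N) = ((ℓ : ℕ) : ZMod N) →
          chi (Theta (Δs p e) H.psi (1 + k)) d ^ 2 * Theta (Δs p e) H.psi (1 + k) u = 1) ∧
        ∀ x : (bigLevel Sy 𝔪 H h (1 + k)).M,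
          (bigReal Sy 𝔪 H h (1 + k)).ι (twP (heckeAlgebra.T hℓ hℓN' hℓS) x)
            = diaH (Theta (Δs p e) H.psi (1 + k)) O d
                (TH (Theta (Δs p e) H.psi (1 + k)) O hℓN ((bigReal Sy 𝔪 H h (1 + k)).ι x)))
    (hρ : ∀ (ℓ : ℕ) (hℓ : ℓ.Prime) (hℓN' : ¬ ℓ ∣ N'') (hℓS : ℓ ∉ (↑S : Set ℕ))
      (A : ValuationSubring Qb), A.LiesOverPrime ℓ → ∀ σ : GQ, A.IsFrobeniusAt σ ℓ →
        LinearMap.charpoly (ρQ.ρ σ)
          = X ^ 2 - C (χ (heckeAlgebra.T hℓ hℓN' hℓS)) * X + C ((ℓ : TQ)))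
    -- the local data at `q = r k`
    (Pl : ValuationSubring Qb) (hPl : Pl.LiesOverPrime (r k)) {τ₀ : GQ}
    (hτ₀ : GB.E2.TameGenAdic.IsTameGenerator Pl p τ₀)
    (hunr : ∀ σ ∈ Pl.inertiaSubgroupIn ℚ, ∀ v : ρQ.V,
      ρQ.ρ σ v - v ∈ maximalIdeal TQ • (⊤ : Submodule TQ ρQ.V))
    (Sq : Matrix (Fin 2) (Fin 2) TQ) (hSq : Sq.charpoly = LinearMap.charpoly (ρQ.ρ τ₀)) :
    ∀ i : GB.Glue.Points.Idx O (GB.Local.Multi.Kill2Field.Tchi a₂),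
      (Sq.map (GB.Local.Multi.Kill2Q.phi a₂ i) - 1) ^ 2 = 0 →
        Sq.map (GB.Local.Multi.Kill2Q.phi a₂ i) = 1 := by
  classical
  have hp : p.Prime := hpF.out
  have hNN'' : N ∣ N'' := Dvd.intro _ hN''.symm
  obtain ⟨dℓ, twC, twO, hdℓ, htwC, htwO, hιT⟩ :=
    exists_tw_data Sy 𝔪 H h k hk hbnd S hN'' hSN'' hNN'' twP hT
  have hπT : ∀ t y, π (twP t y) = a₂ (χ t) (π y) := by
    intro t y
    rw [ha]
    exact (hfmk t y).symm
  -- the diamond at `q`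
  have hidx : 1 + k - 1 - ((Fin.castAdd k (0 : Fin 1) : Fin (1 + k)) : ℕ) = k := by
    rw [Fin.val_castAdd]
    simp
  have hιD : ∀ y, iotaV Sy 𝔪 H h k hbnd ((bigLevel Sy 𝔪 H h (1 + k)).D (Fin.castAdd k 0) y)
      = diaV (Theta (Δs p e) H.psi (1 + k)) O (H.dd hp k) (iotaV Sy 𝔪 H h k hbnd y) := by
    intro y
    rw [iotaV_D, hidx]
  haveI : NeZero (p ^ e k) := ⟨pow_ne_zero _ hp.ne_zero⟩
  exact GB.B5.Glue.HnuPoint.hnu_of_squares_cyclic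
    (Theta (Δs p e) H.psi (1 + k))
    (FramePD.hθ H (1 + k) hk) (FramePD.hodd hp h.hp2 (1 + k))
    _ (FramePD.hL H (1 + k) hk) (FramePD.hnd H (1 + k) hk)
    (FramePD.hdvd H (1 + k) hk) (FramePD.hsq H (1 + k) hk) _ _
    (FramePD.hpr H (1 + k) hk) (FramePD.hprod H (1 + k) hk)
    S hSN'' hNN'' dℓ hdℓ twC htwC twO htwO p h.hp2 hpS hpO χ ρQ hρ
    (FramePD.mem_L r (1 + k) k (by omega)) hrp (H.dd hp k)
    (FramePD.chi_dd_mem_range H hp (1 + k) hk k (by omega)) (p ^ e k)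
    (FramePD.chi_dd_pow H hp (1 + k) k)
    (iotaV Sy 𝔪 H h k hbnd) (iotaV_injective Sy 𝔪 H h k hbnd) π hπ (fun t => twP t) a₂ hιT hπT
    ((bigLevel Sy 𝔪 H h (1 + k)).D (Fin.castAdd k 0)) hιD c0 hcn hc0 hπD Pl hPl hτ₀ hunr Sq hSq

/-! ### `hnu` on `(Plug.tw …).Lχ.M` -/

variable (c : Fin 1 → O) (hc : ∀ v : Fin 1, c v ^ p ^ e (1 + k - 1 - v) = 1)
  (hc1 : ∀ v, (1 : O) - c v ∈ Ideal.span {ϖ})

/-- the quotient map `(bigLevel …).M ↠ M^χ` (`= fmk`) as a linear map -/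
noncomputable def piChi :
    (bigLevel Sy 𝔪 H h (1 + k)).M →ₗ[O] (tw Sy 𝔪 H h 1 k c hc hc1).Lχ.M :=
  (famRange (frD (bigLevel Sy 𝔪 H h (1 + k))) c).mkQ

theorem piChi_apply (x : (bigLevel Sy 𝔪 H h (1 + k)).M) :
    piChi Sy 𝔪 H h k c hc hc1 x = fmk (frD (bigLevel Sy 𝔪 H h (1 + k))) c x := rfl

theorem piChi_surjective : Function.Surjective (piChi Sy 𝔪 H h k c hc hc1) :=
  Submodule.mkQ_surjective (famRange (frD (bigLevel Sy 𝔪 H h (1 + k))) c)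

theorem piChi_D (y : (bigLevel Sy 𝔪 H h (1 + k)).M) :
    piChi Sy 𝔪 H h k c hc hc1 ((bigLevel Sy 𝔪 H h (1 + k)).D (Fin.castAdd k 0) y)
      = c 0 • piChi Sy 𝔪 H h k c hc hc1 y :=
  fmk_apply (frD (bigLevel Sy 𝔪 H h (1 + k))) c 0 y

theorem free_Lχ : Module.Free O (tw Sy 𝔪 H h 1 k c hc hc1).Lχ.M :=
  Module.Free.of_basis (tw Sy 𝔪 H h 1 k c hc hc1).Lχ.basis

theorem nontrivial_Lχ (hd : 0 < (tw Sy 𝔪 H h 1 k c hc hc1).Lχ.d) :
    Nontrivial (tw Sy 𝔪 H h 1 k c hc hc1).Lχ.M := by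
  have hp : p.Prime := hpF.out
  have hne : (tw Sy 𝔪 H h 1 k c hc hc1).Lχ.basis
      (fun i => ⟨0, Nfun_pos hp e (1 + k) (Fin.natAdd 1 i)⟩, ⟨0, hd⟩) ≠ 0 :=
    (tw Sy 𝔪 H h 1 k c hc hc1).Lχ.basis.ne_zero _
  exact ⟨⟨_, 0, hne⟩⟩

include hc in
theorem pow_c_zero : c 0 ^ p ^ e k = 1 := by
  have h1 := hc 0
  have h2 : 1 + k - 1 - ((0 : Fin 1) : ℕ) = k := by simp
  rwa [h2] at h1

/-- **`hnu` (hole G6 of ProviderFlat), plug form.** -/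
theorem hnu_plug (hk : 1 + k ≤ K)
    (hbnd : ∀ y : Additive (GammaH (Theta (Δs p e) H.psi (1 + k))) →+ O,
      IsLoc (actH Sy O (Theta (Δs p e) H.psi (1 + k))) 𝔪 y →
        y ∈ parabolicHoms O (GammaH (Theta (Δs p e) H.psi (1 + k))) O)
    (S : Finset ℕ) (hpS : p ∈ S) (hrp : r k ≠ p) (hpO : (p : O) ∈ maximalIdeal O)
    {N'' : ℕ} [NeZero N''] (hN'' : N'' = N * ∏ i : Fin (1 + k), r i)
    (hSN'' : ∀ ℓ : ℕ, ℓ.Prime → ℓ ∣ N'' → ℓ ∈ (↑S : Set ℕ))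
    (ρQ : GaloisRepAdic TQ)
    (χ : ↥(heckeAlgebra N'' 2 (↑S : Set ℕ)) →+* TQ)
    (a₂ : TQ →ₐ[O] Module.End O (tw Sy 𝔪 H h 1 k c hc hc1).Lχ.M)
    (twχ : ↥(heckeAlgebra N'' 2 (↑S : Set ℕ)) →+*
      Module.End O (tw Sy 𝔪 H h 1 k c hc hc1).Lχ.M)
    (ha : ∀ t, a₂ (χ t) = twχ t)
    (twP : ↥(heckeAlgebra N'' 2 (↑S : Set ℕ)) →+* Module.End O (bigLevel Sy 𝔪 H h (1 + k)).M)
    (hfmk : ∀ t (x : (bigLevel Sy 𝔪 H h (1 + k)).M),
      twχ t (fmk (frD (bigLevel Sy 𝔪 H h (1 + k))) c x)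
        = fmk (frD (bigLevel Sy 𝔪 H h (1 + k))) c (twP t x))
    (hT : ∀ (ℓ : ℕ) (hℓ : ℓ.Prime) (hℓN' : ¬ ℓ ∣ N'') (hℓS : ℓ ∉ (↑S : Set ℕ))
        (hℓN : ¬ ℓ ∣ N),
      haveI : Fact ℓ.Prime := ⟨hℓ⟩
      ∃ d : Gamma0 N,
        (∀ u : (ZMod N)ˣ, (u : ZMod N) = ((ℓ : ℕ) : ZMod N) →
          chi (Theta (Δs p e) H.psi (1 + k)) d ^ 2 * Theta (Δs p e) H.psi (1 + k) u = 1) ∧
        ∀ x : (bigLevel Sy 𝔪 H h (1 + k)).M,
          (bigReal Sy 𝔪 H h (1 + k)).ι (twP (heckeAlgebra.T hℓ hℓN' hℓS) x)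
            = diaH (Theta (Δs p e) H.psi (1 + k)) O d
                (TH (Theta (Δs p e) H.psi (1 + k)) O hℓN ((bigReal Sy 𝔪 H h (1 + k)).ι x)))
    (hρ : ∀ (ℓ : ℕ) (hℓ : ℓ.Prime) (hℓN' : ¬ ℓ ∣ N'') (hℓS : ℓ ∉ (↑S : Set ℕ))
      (A : ValuationSubring Qb), A.LiesOverPrime ℓ → ∀ σ : GQ, A.IsFrobeniusAt σ ℓ →
        LinearMap.charpoly (ρQ.ρ σ)
          = X ^ 2 - C (χ (heckeAlgebra.T hℓ hℓN' hℓS)) * X + C ((ℓ : TQ)))
    (hd : 0 < (tw Sy 𝔪 H h 1 k c hc hc1).Lχ.d) (hc0 : c 0 ≠ 1)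
    -- the local data at `q = r k`
    (Pl : ValuationSubring Qb) (hPl : Pl.LiesOverPrime (r k)) {τ₀ : GQ}
    (hτ₀ : GB.E2.TameGenAdic.IsTameGenerator Pl p τ₀)
    (hunr : ∀ σ ∈ Pl.inertiaSubgroupIn ℚ, ∀ v : ρQ.V,
      ρQ.ρ σ v - v ∈ maximalIdeal TQ • (⊤ : Submodule TQ ρQ.V))
    (Sq : Matrix (Fin 2) (Fin 2) TQ) (hSq : Sq.charpoly = LinearMap.charpoly (ρQ.ρ τ₀)) :
    ∀ i : GB.Glue.Points.Idx O (GB.Local.Multi.Kill2Field.Tchi a₂),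
      (Sq.map (GB.Local.Multi.Kill2Q.phi a₂ i) - 1) ^ 2 = 0 →
        Sq.map (GB.Local.Multi.Kill2Q.phi a₂ i) = 1 :=
  haveI : Module.Free O (tw Sy 𝔪 H h 1 k c hc hc1).Lχ.M := free_Lχ Sy 𝔪 H h k c hc hc1
  haveI : Module.IsTorsionFree O (tw Sy 𝔪 H h 1 k c hc hc1).Lχ.M := inferInstance
  haveI : Nontrivial (tw Sy 𝔪 H h 1 k c hc hc1).Lχ.M := nontrivial_Lχ Sy 𝔪 H h k c hc hc1 hd
  hnu_plug_gen Sy 𝔪 H h k hk hbnd S hpS hrp hpO hN'' hSN'' ρQ χ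
    (piChi Sy 𝔪 H h k c hc hc1) (piChi_surjective Sy 𝔪 H h k c hc hc1) (c 0)
    (pow_c_zero k c hc) hc0 (piChi_D Sy 𝔪 H h k c hc hc1) a₂ twχ ha twP hfmk hT hρ Pl hPl hτ₀ hunr
    Sq hSq

end Plug

end GB.B5.Glue.HnuPlug

end Fermat.Agent.GE8.P3B
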